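import Fermat.Agent.S42.helper162_Wiring
import Fermat.Agent.Lib.helper822_TorsionGalois

/-!
# S42 wiring, finite-level hypothesis discharged (helper162)

`helper162_Wiring.lean` derives S42 from the *statement* of S29 and from the fact that the mod-`p`
representation of the Frey curve factors through a finite level.  The latter is
`Fermat.Agent.Lib.helper822.galoisFactorsThroughFiniteLevel_torsion`, so S42 follows from the
statement of S29 alone.
-/

set_option autoImplicit false

namespace Fermat.Agent.S42.helper162

/-- The mod-`p` representation of the Frey curve factors through a finite level. -/
theorem freyFiniteLevel (P : FreyPackage) : FreyFiniteLevel P := by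
  classical
  exact Fermat.Agent.Lib.helper822.galoisFactorsThroughFiniteLevel_torsion
    P.freyCurve P.p P.pp.ne_zero

/-- S42 from the statement of S29 alone. -/
theorem result_of_S29_only (h29 : S29Statement) (P : FreyPackage) :
    ∀ M : ℕ, 0 < M → P.EigenformResidualAttachmentAt M :=
  result_of_S29 h29 P (freyFiniteLevel P)

end Fermat.Agent.S42.helper162
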