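import Fermat.Agent.S42.helper162_Final

/-!
# S42 from weak forms of S29 (helper162)

`S42` only uses the statement of S29

* at the prime `p = P.p` of the Frey package (so `p ≥ 5`: the primes `2` and `3` never occur),
* at levels `M > 0`,
* for the residue field `k = ℤ̄ ⧸ 𝔪` (an algebraically closed field of characteristic `p`) and
  the *surjective* reduction map `φ = Ideal.Quotient.mk 𝔪`,
* and only the clause `IsAttachedTo` (no unramifiedness).

This file proves S42 from these weak forms, so that `S42.lean` can be landed from a partial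
version of S29 (e.g. algebraically closed coefficient field, `p ≥ 5`).
-/

set_option autoImplicit false
set_option linter.style.haveILetI false

namespace Fermat.Agent.S42.helper162

open Polynomial

/-- The weak form of S29 used by S42: at the prime `p`, levels `M > 0`, surjective `φ`,
attachment only. -/
def S29WeakAt (p : ℕ) : Prop :=
  ∀ {M : ℕ} (_ : 0 < M) {g : CuspForm (CongruenceSubgroup.Gamma0 M) 2}
    (_ : g.IsNormalizedEigenform) {k : Type} [Field k] [CharP k p]
    (φ : integralClosure ℤ ℂ →+* k) (_ : Function.Surjective φ),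
    ∃ ρ : ResidualGaloisRep k, ρ.IsAttachedTo g φ

/-- The same with an algebraically closed coefficient field. -/
def S29WeakAlgClosedAt (p : ℕ) : Prop :=
  ∀ {M : ℕ} (_ : 0 < M) {g : CuspForm (CongruenceSubgroup.Gamma0 M) 2}
    (_ : g.IsNormalizedEigenform) {k : Type} [Field k] [IsAlgClosed k] [CharP k p]
    (φ : integralClosure ℤ ℂ →+* k) (_ : Function.Surjective φ),
    ∃ ρ : ResidualGaloisRep k, ρ.IsAttachedTo g φ

/-- The statement of S29 implies its weak form at every prime. -/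
theorem s29WeakAt_of_S29 (h29 : S29Statement) {p : ℕ} (hp : p.Prime) : S29WeakAt p :=
  fun _ _ hg _ _ _ φ _ => (h29 hg hp φ).imp fun _ h => h.1

/-- A field onto which `ℤ̄` surjects is algebraically closed. -/
theorem isAlgClosed_of_surjective {k : Type} [Field k] (φ : integralClosure ℤ ℂ →+* k)
    (hφ : Function.Surjective φ) : IsAlgClosed k := by
  refine IsAlgClosed.of_exists_root k fun q hq _ => ?_
  obtain ⟨Q, hQmap, hQdeg, hQmonic⟩ := Polynomial.lifts_and_degree_eq_and_monic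
    ((Polynomial.mem_lifts q).mpr (by
      have : Function.Surjective (Polynomial.map φ) := Polynomial.map_surjective φ hφ
      exact this q)) hq
  -- `Q` is monic with algebraic integer coefficients: it has a root in `ℤ̄`.
  have hQC : (Q.map (algebraMap (integralClosure ℤ ℂ) ℂ)).degree ≠ 0 := by
    rw [Polynomial.degree_map_eq_of_injective (FaithfulSMul.algebraMap_injective _ _), hQdeg]
    intro h0
    have hq1 : q = 1 := Polynomial.eq_one_of_monic_natDegree_zero hq
      (Polynomial.natDegree_eq_zero_iff_degree_le_zero.mpr h0.le)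
    have hirr : Irreducible q := by assumption
    exact hirr.not_isUnit (hq1 ▸ isUnit_one)
  obtain ⟨z, hz⟩ := IsAlgClosed.exists_root _ hQC
  have hzint : IsIntegral ℤ z := by
    have h1 : IsIntegral (integralClosure ℤ ℂ) z :=
      ⟨Q, hQmonic, by
        rw [Polynomial.eval₂_eq_eval_map]
        exact hz⟩
    exact isIntegral_trans (R := ℤ) (A := integralClosure ℤ ℂ) z h1
  let w : integralClosure ℤ ℂ := ⟨z, hzint⟩
  have key : (algebraMap (integralClosure ℤ ℂ) ℂ) (Polynomial.eval w Q) =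
      Polynomial.eval z (Q.map (algebraMap (integralClosure ℤ ℂ) ℂ)) := by
    rw [Polynomial.eval_map]
    exact (Polynomial.eval₂_hom (algebraMap (integralClosure ℤ ℂ) ℂ) w (p := Q)).symm
  have hw : Polynomial.eval w Q = 0 := by
    apply FaithfulSMul.algebraMap_injective (integralClosure ℤ ℂ) ℂ
    rw [key, map_zero]
    exact hz
  refine ⟨φ w, ?_⟩
  rw [← hQmap, Polynomial.eval_map, Polynomial.eval₂_hom, hw, map_zero]

/-- The weak form with algebraically closed coefficients implies the weak form. -/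
theorem s29WeakAt_of_algClosed {p : ℕ} (h : S29WeakAlgClosedAt p) : S29WeakAt p := by
  intro M hM g hg k _ _ φ hφ
  haveI := isAlgClosed_of_surjective φ hφ
  exact h hM hg φ hφ

/-- S42 from the weak form of S29 at the prime of the Frey package. -/
theorem result_of_weak (P : FreyPackage) (h29 : S29WeakAt P.p) :
    ∀ M : ℕ, 0 < M → P.EigenformResidualAttachmentAt M := by
  intro M hM g hg 𝔪 h𝔪 hp𝔪
  have hP := freyFiniteLevel P
  haveI := h𝔪
  letI : Field (integralClosure ℤ ℂ ⧸ 𝔪) := Ideal.Quotient.field 𝔪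
  have hp0 : ((P.p : ℕ) : integralClosure ℤ ℂ ⧸ 𝔪) = 0 := by
    have : (Ideal.Quotient.mk 𝔪) (P.p : integralClosure ℤ ℂ) = 0 :=
      Ideal.Quotient.eq_zero_iff_mem.mpr hp𝔪
    simpa using this
  haveI hchar : CharP (integralClosure ℤ ℂ ⧸ 𝔪) P.p := by
    have h := CharP.ringChar_of_prime_eq_zero P.pp hp0
    have h' := ringChar.charP (integralClosure ℤ ℂ ⧸ 𝔪)
    rwa [h] at h'
  letI : Algebra (ZMod P.p) (integralClosure ℤ ℂ ⧸ 𝔪) := ZMod.algebra _ P.p
  obtain ⟨ρ, hatt⟩ := h29 hM hg (Ideal.Quotient.mk 𝔪) Ideal.Quotient.mk_surjective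
  obtain ⟨L₁, hL₁fin, hL₁⟩ := hP
  obtain ⟨L₂, hL₂fin, hL₂⟩ := ρ.factorsThroughFiniteLevel
  haveI : FiniteDimensional ℚ ↥(L₁ ⊔ L₂) := IntermediateField.finiteDimensional_sup L₁ L₂
  let L : IntermediateField ℚ (AlgebraicClosure ℚ) :=
    IntermediateField.normalClosure ℚ ↥(L₁ ⊔ L₂) (AlgebraicClosure ℚ)
  haveI : Normal ℚ (AlgebraicClosure ℚ) := normal_rat
  haveI : FiniteDimensional ℚ ↥L := normalClosure.is_finiteDimensional _ _ _
  haveI : Normal ℚ ↥L := normalClosure.normal _ _ _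
  haveI : NumberField ↥L := ⟨⟩
  haveI : IsGalois ℚ ↥L := ⟨⟩
  have hle : L₁ ⊔ L₂ ≤ L := IntermediateField.le_normalClosure _
  have hfix : ∀ σ : AlgebraicClosure ℚ ≃ₐ[ℚ] AlgebraicClosure ℚ,
      σ ∈ (AlgEquiv.restrictNormalHom (F := ℚ) (K₁ := AlgebraicClosure ℚ) ↥L).ker →
      ∀ x ∈ L, σ x = x := by
    intro σ hσ x hx
    have h1 : σ.restrictNormal ↥L = 1 := hσ
    have h2 := AlgEquiv.restrictNormal_commutes σ ↥L ⟨x, hx⟩
    rw [h1] at h2
    simpa using h2.symm
  refine ⟨integralClosure ℤ ℂ ⧸ 𝔪, inferInstance, inferInstance, ρ.V, inferInstance,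
    inferInstance, ρ.ρ, Ideal.Quotient.mk 𝔪, ↥L, inferInstance, inferInstance, inferInstance,
    inferInstance, inferInstance, ?_, ρ.finrank_eq, ?_, ?_, ?_⟩
  · intro x hx
    exact Ideal.Quotient.eq_zero_iff_mem.mpr hx
  · intro σ hσ
    have hσ' := hfix σ hσ
    refine ⟨?_, ?_⟩
    · exact hL₁ σ fun x hx => hσ' x (hle (le_sup_left (a := L₁) (b := L₂) hx))
    · exact hL₂ σ fun x hx => hσ' x (hle (le_sup_right (a := L₁) (b := L₂) hx))
  · intro ℓ hℓ hℓM hℓp A hA τ hτ
    have hℓ0 : ((ℓ : ℕ) : integralClosure ℤ ℂ ⧸ 𝔪) ≠ 0 := by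
      intro h0
      have hdvd := (CharP.cast_eq_zero_iff (integralClosure ℤ ℂ ⧸ 𝔪) P.p ℓ).mp h0
      exact hℓp ((Nat.prime_dvd_prime_iff_eq P.pp hℓ).mp hdvd).symm
    obtain ⟨a, ha, hcp⟩ := hatt ℓ hℓ hℓM hℓ0 A hA τ hτ
    exact ⟨a, ha, trace_of_charpoly ρ.finrank_eq _ _ _ hcp⟩
  · intro ℓ hℓ hℓM hℓp A hA τ hτ
    have hℓ0 : ((ℓ : ℕ) : integralClosure ℤ ℂ ⧸ 𝔪) ≠ 0 := by
      intro h0
      have hdvd := (CharP.cast_eq_zero_iff (integralClosure ℤ ℂ ⧸ 𝔪) P.p ℓ).mp h0
      exact hℓp ((Nat.prime_dvd_prime_iff_eq P.pp hℓ).mp hdvd).symm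
    obtain ⟨a, ha, hcp⟩ := hatt ℓ hℓ hℓM hℓ0 A hA τ hτ
    exact det_of_charpoly ρ.finrank_eq _ _ _ hcp

/-- S42 from the weak form of S29 with algebraically closed coefficients. -/
theorem result_of_weak_algClosed (P : FreyPackage) (h29 : S29WeakAlgClosedAt P.p) :
    ∀ M : ℕ, 0 < M → P.EigenformResidualAttachmentAt M :=
  result_of_weak P (s29WeakAt_of_algClosed h29)

end Fermat.Agent.S42.helper162
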