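import Mathlib
import Fermat.Prelude.Def_FreyPackage_EigenformResidualAttachment
import Fermat.Prelude.Def_GaloisRep_Residual

/-!
# S42 conditional wiring (helper162)

`S42` (`∀ M > 0, P.EigenformResidualAttachmentAt M`) follows from

* the *statement* of S29 (existence of a residual Galois representation attached to a
  normalised eigenform), and
* the fact that the mod-`p` representation of the Frey curve factors through a finite level.

Nothing here depends on a proof of S29: it is taken as a hypothesis.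
-/

set_option autoImplicit false
set_option linter.style.haveILetI false

namespace Fermat.Agent.S42.helper162

open Polynomial WeierstrassCurve WeierstrassCurve.Affine.Point

/-- The statement of S29, verbatim. -/
def S29Statement : Prop :=
  ∀ {N : ℕ} {g : CuspForm (CongruenceSubgroup.Gamma0 N) 2} (_ : g.IsNormalizedEigenform)
    {p : ℕ} (_ : p.Prime) {k : Type} [Field k] [CharP k p]
    (φ : integralClosure ℤ ℂ →+* k),
    ∃ ρ : ResidualGaloisRep k, ρ.IsAttachedTo g φ ∧
      ∀ ℓ : ℕ, ℓ.Prime → ¬ ℓ ∣ N * p → ρ.IsUnramifiedAt ℓ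

/-- The mod-`p` representation of the Frey curve factors through a finite level. -/
def FreyFiniteLevel (P : FreyPackage) : Prop :=
  GaloisFactorsThroughFiniteLevel
    (galoisRepModuleEnd (S := ℚ) (K := AlgebraicClosure ℚ) P.freyCurve P.p)

/-- `ℚ̄/ℚ` is an algebraic closure for the `ℚ`-algebra structure that instance search finds
(`DivisionRing.toRatAlgebra`, which is only defeq to `AlgebraicClosure.instAlgebra` at default
transparency, so the Mathlib instance is not found automatically). -/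
theorem isAlgClosure_rat : IsAlgClosure ℚ (AlgebraicClosure ℚ) :=
  (inferInstance : @IsAlgClosure ℚ (AlgebraicClosure ℚ) _ _ (AlgebraicClosure.instAlgebra ℚ) _)

theorem normal_rat : Normal ℚ (AlgebraicClosure ℚ) :=
  haveI := isAlgClosure_rat
  IsAlgClosure.normal ℚ (AlgebraicClosure ℚ)

/-- Trace of an endomorphism of a 2-dimensional space from its characteristic polynomial. -/
theorem trace_of_charpoly {K V : Type} [Field K] [AddCommGroup V] [Module K V]
    [Module.Finite K V] (h2 : Module.finrank K V = 2) (f : V →ₗ[K] V) (t d : K)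
    (hf : LinearMap.charpoly f = X ^ 2 - C t * X + C d) :
    LinearMap.trace K V f = t := by
  classical
  let b : Module.Basis (Fin 2) K V := Module.finBasisOfFinrankEq K V h2
  rw [LinearMap.trace_eq_matrix_trace K b f, Matrix.trace_eq_neg_charpoly_coeff,
    LinearMap.charpoly_toMatrix f b, hf]
  simp [Polynomial.coeff_C]

/-- Determinant of an endomorphism of a 2-dimensional space from its characteristic
polynomial. -/
theorem det_of_charpoly {K V : Type} [Field K] [AddCommGroup V] [Module K V]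
    [Module.Finite K V] (h2 : Module.finrank K V = 2) (f : V →ₗ[K] V) (t d : K)
    (hf : LinearMap.charpoly f = X ^ 2 - C t * X + C d) :
    LinearMap.det f = d := by
  rw [LinearMap.det_eq_sign_charpoly_coeff, h2, hf]
  simp

/-- Conditional wiring: S42 from the statement of S29 and finite-levelness of the Frey
representation. -/
theorem result_of_S29 (h29 : S29Statement) (P : FreyPackage) (hP : FreyFiniteLevel P) :
    ∀ M : ℕ, 0 < M → P.EigenformResidualAttachmentAt M := by
  intro M _hM g hg 𝔪 h𝔪 hp𝔪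
  haveI := h𝔪
  letI : Field (integralClosure ℤ ℂ ⧸ 𝔪) := Ideal.Quotient.field 𝔪
  have hp0 : ((P.p : ℕ) : integralClosure ℤ ℂ ⧸ 𝔪) = 0 := by
    have : (Ideal.Quotient.mk 𝔪) (P.p : integralClosure ℤ ℂ) = 0 :=
      Ideal.Quotient.eq_zero_iff_mem.mpr hp𝔪
    simpa using this
  haveI hchar : CharP (integralClosure ℤ ℂ ⧸ 𝔪) P.p := by
    have h := CharP.ringChar_of_prime_eq_zero P.pp hp0
    have h' := ringChar.charP (integralClosure ℤ ℂ ⧸ 𝔪)
    rwa [h] at h'
  letI : Algebra (ZMod P.p) (integralClosure ℤ ℂ ⧸ 𝔪) := ZMod.algebra _ P.p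
  obtain ⟨ρ, hatt, -⟩ := h29 hg P.pp (Ideal.Quotient.mk 𝔪)
  obtain ⟨L₁, hL₁fin, hL₁⟩ := hP
  obtain ⟨L₂, hL₂fin, hL₂⟩ := ρ.factorsThroughFiniteLevel
  haveI : FiniteDimensional ℚ ↥(L₁ ⊔ L₂) := IntermediateField.finiteDimensional_sup L₁ L₂
  let L : IntermediateField ℚ (AlgebraicClosure ℚ) :=
    IntermediateField.normalClosure ℚ ↥(L₁ ⊔ L₂) (AlgebraicClosure ℚ)
  haveI : Normal ℚ (AlgebraicClosure ℚ) := normal_rat
  haveI : FiniteDimensional ℚ ↥L := normalClosure.is_finiteDimensional _ _ _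
  haveI : Normal ℚ ↥L := normalClosure.normal _ _ _
  haveI : NumberField ↥L := ⟨⟩
  haveI : IsGalois ℚ ↥L := ⟨⟩
  have hle : L₁ ⊔ L₂ ≤ L := IntermediateField.le_normalClosure _
  have hfix : ∀ σ : AlgebraicClosure ℚ ≃ₐ[ℚ] AlgebraicClosure ℚ,
      σ ∈ (AlgEquiv.restrictNormalHom (F := ℚ) (K₁ := AlgebraicClosure ℚ) ↥L).ker →
      ∀ x ∈ L, σ x = x := by
    intro σ hσ x hx
    have h1 : σ.restrictNormal ↥L = 1 := hσ
    have h2 := AlgEquiv.restrictNormal_commutes σ ↥L ⟨x, hx⟩
    rw [h1] at h2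
    simpa using h2.symm
  refine ⟨integralClosure ℤ ℂ ⧸ 𝔪, inferInstance, inferInstance, ρ.V, inferInstance,
    inferInstance, ρ.ρ, Ideal.Quotient.mk 𝔪, ↥L, inferInstance, inferInstance, inferInstance,
    inferInstance, inferInstance, ?_, ρ.finrank_eq, ?_, ?_, ?_⟩
  · intro x hx
    exact Ideal.Quotient.eq_zero_iff_mem.mpr hx
  · intro σ hσ
    have hσ' := hfix σ hσ
    refine ⟨?_, ?_⟩
    · exact hL₁ σ fun x hx => hσ' x (hle (le_sup_left (a := L₁) (b := L₂) hx))
    · exact hL₂ σ fun x hx => hσ' x (hle (le_sup_right (a := L₁) (b := L₂) hx))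
  · intro ℓ hℓ hℓM hℓp A hA τ hτ
    have hℓ0 : ((ℓ : ℕ) : integralClosure ℤ ℂ ⧸ 𝔪) ≠ 0 := by
      intro h0
      have hdvd := (CharP.cast_eq_zero_iff (integralClosure ℤ ℂ ⧸ 𝔪) P.p ℓ).mp h0
      exact hℓp ((Nat.prime_dvd_prime_iff_eq P.pp hℓ).mp hdvd).symm
    obtain ⟨a, ha, hcp⟩ := hatt ℓ hℓ hℓM hℓ0 A hA τ hτ
    exact ⟨a, ha, trace_of_charpoly ρ.finrank_eq _ _ _ hcp⟩
  · intro ℓ hℓ hℓM hℓp A hA τ hτ
    have hℓ0 : ((ℓ : ℕ) : integralClosure ℤ ℂ ⧸ 𝔪) ≠ 0 := by
      intro h0
      have hdvd := (CharP.cast_eq_zero_iff (integralClosure ℤ ℂ ⧸ 𝔪) P.p ℓ).mp h0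
      exact hℓp ((Nat.prime_dvd_prime_iff_eq P.pp hℓ).mp hdvd).symm
    obtain ⟨a, ha, hcp⟩ := hatt ℓ hℓ hℓM hℓ0 A hA τ hτ
    exact det_of_charpoly ρ.finrank_eq _ _ _ hcp

end Fermat.Agent.S42.helper162
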